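import Fermat.Agent.CFT.Field.GaloisModule
import Fermat.Agent.CFT.Coh.Functional

/-!
Classes with values in roots of unity: comparison with the multiplicative group.
-/

set_option autoImplicit false

noncomputable section

open scoped Classical

namespace FermatAgent.CFT

open Coh

variable {k Ω : Type} [Field k] [Field Ω] [Algebra k Ω] {p : ℕ} [hp : Fact p.Prime]
  {χ : (Ω ≃ₐ[k] Ω) →* (ZMod p)ˣ} {ζ : Ω} (hζ : IsPrimitiveRoot ζ p)

/-- The identification of `Mu χ` with the roots of unity. -/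
def muToUx : Mu χ →+ Ux Ω :=
  (ZMod.lift p (A := Ux Ω) ⟨zmultiplesHom (Ux Ω) (Ux.mk ζ (hζ.ne_zero hp.out.ne_zero)), by
    rw [zmultiplesHom_apply, natCast_zsmul]
    exact Ux.ext (by rw [Ux.val_nsmul, Ux.val_mk, hζ.pow_eq_one, Ux.val_zero])⟩).comp (Mu.val χ)

/-- The root of unity of a twisted residue. -/
lemma val_muToUx (a : Mu χ) : (muToUx hζ a).val = ζ ^ (Mu.val χ a).val := by
  rw [muToUx, AddMonoidHom.comp_apply]
  conv_lhs => rw [← ZMod.natCast_zmod_val (Mu.val χ a)]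
  rw [← Int.cast_natCast (R := ZMod p), ZMod.lift_coe, zmultiplesHom_apply,
    natCast_zsmul, Ux.val_nsmul,
    Ux.val_mk]

/-- The map to the roots of unity is injective. -/
lemma muToUx_injective : Function.Injective (muToUx (χ := χ) hζ) := fun a b h => by
  have h' := congrArg Ux.val h
  rw [val_muToUx, val_muToUx] at h'
  exact Mu.ext χ (ZMod.val_injective p (hζ.pow_inj (ZMod.val_lt _) (ZMod.val_lt _) h'))

/-- Images of twisted residues are killed by `p`. -/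
lemma nsmul_muToUx (a : Mu χ) : p • muToUx hζ a = 0 := by
  refine Ux.ext ?_
  rw [Ux.val_nsmul, val_muToUx, ← pow_mul, mul_comm, pow_mul, hζ.pow_eq_one, one_pow, Ux.val_zero]

/-- Elements killed by `p` are roots of unity. -/
lemma exists_muToUx_eq {x : Ux Ω} (h : p • x = 0) : ∃ a : Mu χ, muToUx hζ a = x := by
  have : NeZero p := ⟨hp.out.ne_zero⟩
  have hx : x.val ^ p = 1 := by rw [← Ux.val_nsmul, h, Ux.val_zero]
  obtain ⟨i, hi, hix⟩ := hζ.eq_pow_of_pow_eq_one hx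
  exact ⟨Mu.of χ (i : ZMod p), Ux.ext (by
    rw [val_muToUx, Mu.val_of, ZMod.val_natCast_of_lt hi, hix])⟩

variable (hχ : ∀ g : Ω ≃ₐ[k] Ω, g ζ = ζ ^ ((χ g : ZMod p)).val)

include hχ in
/-- The map to the roots of unity is equivariant. -/
lemma muToUx_smul (g : Ω ≃ₐ[k] Ω) (a : Mu χ) : muToUx hζ (g • a) = g • muToUx hζ a := by
  refine Ux.ext ?_
  rw [Ux.val_smul, val_muToUx, val_muToUx, map_pow, hχ, ← pow_mul, Mu.val_smul, ZMod.val_mul,
    ← pow_eq_pow_mod _ hζ.pow_eq_one]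

variable [IsGalois k Ω] [IsAlgClosed Ω]

omit hp [IsGalois k Ω] in
lemma exists_nsmul_eq [Fact p.Prime] (x : Ux Ω) : ∃ y : Ux Ω, p • y = x := by
  obtain ⟨z, hz⟩ := IsAlgClosed.exists_pow_nat_eq x.val (Fact.out : p.Prime).pos
  have hz0 : z ≠ 0 :=
    fun h => x.val_ne_zero (by rw [← hz, h, zero_pow (Fact.out : p.Prime).ne_zero])
  exact ⟨Ux.mk z hz0, Ux.ext (by rw [Ux.val_nsmul, Ux.val_mk, hz])⟩

omit hp [IsGalois k Ω] [IsAlgClosed Ω] in
/-- The action commutes with natural multiples. -/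
lemma nsmul_smul_comm (n : ℕ) (g : Ω ≃ₐ[k] Ω) (x : Ux Ω) : n • g • x = g • n • x :=
  (map_nsmul (DistribSMul.toAddMonoidHom (Ux Ω) g) n x).symm

variable (p) in
/-- A chosen `p`-th root. -/
def pRoot (x : Ux Ω) : Ux Ω := (exists_nsmul_eq (p := p) x).choose

omit [IsGalois k Ω] in
/-- The chosen root is a root. -/
lemma nsmul_pRoot (x : Ux Ω) : p • pRoot p x = x := (exists_nsmul_eq (p := p) x).choose_spec

variable {W : Subgroup (Ω ≃ₐ[k] Ω)} (hW : W ∈ galLevels k Ω)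

include hW hχ

omit hW in
/-- A class of exponent `p` comes from roots of unity. -/
theorem exists_mu_lift {f : (Ω ≃ₐ[k] Ω) → (Ω ≃ₐ[k] Ω) → Ux Ω}
    (hf : f ∈ (galLevels k Ω).Z2 W (Ux Ω)) (h : p • f ∈ (galLevels k Ω).B2 W (Ux Ω)) :
    ∃ g ∈ (galLevels k Ω).Z2 W (Mu χ),
      f - (fun a b => muToUx hζ (g a b)) ∈ (galLevels k Ω).B2 W (Ux Ω) := by
  obtain ⟨c, hc, hfc⟩ := h
  set c' : (Ω ≃ₐ[k] Ω) → Ux Ω := fun a => pRoot p (c a)
  have hc' : (galLevels k Ω).Const1 W c' := hc.comp _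
  have hd : d1 c' ∈ (galLevels k Ω).B2 W (Ux Ω) := Levels.d1_mem_B2 hc'
  set f' := f - d1 c'
  have hf' : f' ∈ (galLevels k Ω).Z2 W (Ux Ω) := sub_mem hf (Levels.B2_le_Z2 smooth_ux hd)
  have hp0 : ∀ a ∈ W, ∀ b ∈ W, p • f' a b = 0 := fun a ha b hb => by
    show p • (f a b - d1 c' a b) = 0
    rw [nsmul_sub, show p • f a b = d1 c a b from hfc a ha b hb, d1, d1, nsmul_add, nsmul_sub]
    simp only [c', nsmul_pRoot]
    rw [show p • a • pRoot p (c b) = a • c b by rw [nsmul_smul_comm, nsmul_pRoot]]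
    abel
  set inv' : Ux Ω → Mu χ := Function.invFun (muToUx (χ := χ) hζ)
  set g : (Ω ≃ₐ[k] Ω) → (Ω ≃ₐ[k] Ω) → Mu χ := fun a b => inv' (f' a b)
  have hg : ∀ a ∈ W, ∀ b ∈ W, muToUx hζ (g a b) = f' a b := fun a ha b hb =>
    Function.invFun_eq (exists_muToUx_eq hζ (hp0 a ha b hb))
  refine ⟨g, ⟨hf'.1.comp inv', fun a ha b hb j hj => muToUx_injective hζ ?_⟩,
    Levels.B2_congr hd fun a ha b hb => ?_⟩
  · rw [map_zero, ← hf'.2 a ha b hb j hj]
    simp only [d2, map_add, map_sub, muToUx_smul hζ hχ, hg b hb j hj, hg _ (mul_mem ha hb) j hj,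
      hg a ha _ (mul_mem hb hj), hg a ha b hb]
  · show f a b - muToUx hζ (g a b) = _
    rw [hg a ha b hb]
    exact sub_sub_cancel (f a b) (d1 c' a b)

/-- Classes with values in roots of unity inject into the classes of the multiplicative group. -/
theorem mem_B2_of_muToUx {g : (Ω ≃ₐ[k] Ω) → (Ω ≃ₐ[k] Ω) → Mu χ}
    (h : (fun a b => muToUx hζ (g a b)) ∈ (galLevels k Ω).B2 W (Ux Ω)) :
    g ∈ (galLevels k Ω).B2 W (Mu χ) := by
  obtain ⟨c, hc, hgc⟩ := h
  have hz : (fun a => p • c a) ∈ (galLevels k Ω).Z1 W (Ux Ω) := by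
    refine ⟨hc.comp (fun x => p • x), fun a ha b hb => ?_⟩
    have h' := congrArg (fun x => p • x) (hgc a ha b hb)
    simp only [d1, nsmul_add, nsmul_sub, nsmul_muToUx] at h' ⊢
    rw [nsmul_smul_comm] at h'
    exact h'.symm
  obtain ⟨x, hx⟩ := Ux.mem_B1_of_mem_Z1 hW hz
  obtain ⟨V, hV, hfix⟩ := smooth_ux (k := k) (pRoot p x)
  set c' : (Ω ≃ₐ[k] Ω) → Ux Ω := fun a => c a - d0 (pRoot p x) a
  have hc0 : (galLevels k Ω).Const1 W (fun a => d0 (pRoot p x) a) :=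
    ⟨V, hV, fun a _ s hs => by simp only [d0, mul_smul, hfix s hs.2]⟩
  have hc' : (galLevels k Ω).Const1 W c' := hc.op hc0 (fun u v => u - v)
  have hp0 : ∀ a ∈ W, p • c' a = 0 := fun a ha => by
    show p • (c a - d0 (pRoot p x) a) = 0
    rw [nsmul_sub, show p • c a = d0 x a from hx a ha, d0, d0, nsmul_sub, nsmul_pRoot,
      show p • a • pRoot p x = a • x by rw [nsmul_smul_comm, nsmul_pRoot], sub_self]
  set inv' : Ux Ω → Mu χ := Function.invFun (muToUx (χ := χ) hζ)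
  have hinv : ∀ a ∈ W, muToUx hζ (inv' (c' a)) = c' a := fun a ha =>
    Function.invFun_eq (exists_muToUx_eq hζ (hp0 a ha))
  refine ⟨fun a => inv' (c' a), hc'.comp inv', fun a ha b hb => muToUx_injective hζ ?_⟩
  rw [Levels.map_d1 (muToUx hζ) (fun m => muToUx_smul hζ hχ a m)]
  simp only [d1, hinv a ha, hinv b hb, hinv _ (mul_mem ha hb)]
  have h1 := hgc a ha b hb
  simp only [d1] at h1
  rw [h1]
  simp only [c', d0, smul_sub, mul_smul]
  abel

end FermatAgent.CFT
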