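import Fermat.Agent.CFT.Coh.CyclicClass

/-!
The levels of an absolute Galois group, the multiplicative group as a module, and Hilbert 90.
-/

set_option autoImplicit false

noncomputable section

open scoped Classical
open IntermediateField

namespace FermatAgent.CFT

open Coh

section Units

/-- The multiplicative group of a field, written additively. -/
def Ux (Ω : Type) [Field Ω] : Type := Additive Ωˣ

namespace Ux

variable {Ω : Type} [Field Ω]

instance : AddCommGroup (Ux Ω) := inferInstanceAs (AddCommGroup (Additive Ωˣ))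

/-- A unit as an element of the module. -/
def ofUnit (x : Ωˣ) : Ux Ω := Additive.ofMul x

/-- The unit underlying an element of the module. -/
def toUnit (a : Ux Ω) : Ωˣ := Additive.toMul a

/-- The field element underlying an element of the module. -/
def val (a : Ux Ω) : Ω := (toUnit a : Ω)

/-- A nonzero field element as an element of the module. -/
def mk (x : Ω) (hx : x ≠ 0) : Ux Ω := ofUnit (Units.mk0 x hx)

/-- Additive units are determined by their values. -/
@[ext] lemma ext {a b : Ux Ω} (h : val a = val b) : a = b :=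
  Additive.toMul.injective (Units.ext h)

/-- The value of an element built from a nonzero element. -/
@[simp] lemma val_mk (x : Ω) (hx : x ≠ 0) : val (mk x hx) = x := rfl
/-- The value of zero is one. -/
@[simp] lemma val_zero : val (0 : Ux Ω) = 1 := rfl
/-- Values turn sums into products. -/
@[simp] lemma val_add (a b : Ux Ω) : val (a + b) = val a * val b := rfl

/-- Values are nonzero. -/
lemma val_ne_zero (a : Ux Ω) : val a ≠ 0 := (toUnit a).ne_zero

/-- Values turn negatives into inverses. -/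
@[simp] lemma val_neg (a : Ux Ω) : val (-a) = (val a)⁻¹ :=
  eq_inv_of_mul_eq_one_left (by rw [← val_add, neg_add_cancel, val_zero])

/-- Values turn differences into quotients. -/
@[simp] lemma val_sub (a b : Ux Ω) : val (a - b) = val a / val b := by
  rw [sub_eq_add_neg, val_add, val_neg, div_eq_mul_inv]

/-- Values turn natural multiples into powers. -/
@[simp] lemma val_nsmul (n : ℕ) (a : Ux Ω) : val (n • a) = val a ^ n := by
  induction n with
  | zero => simp
  | succ n ih => rw [succ_nsmul, val_add, ih, pow_succ]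

/-- Values turn integer multiples into powers. -/
@[simp] lemma val_zsmul (n : ℤ) (a : Ux Ω) : val (n • a) = val a ^ n := by
  cases n with
  | ofNat m => simp
  | negSucc m => rw [negSucc_zsmul, val_neg, val_nsmul, zpow_negSucc]

/-- Values turn finite sums into products. -/
@[simp] lemma val_sum {ι : Type*} (s : Finset ι) (a : ι → Ux Ω) :
    val (∑ i ∈ s, a i) = ∏ i ∈ s, val (a i) := by
  induction s using Finset.induction with
  | empty => simp
  | insert i s hi ih => rw [Finset.sum_insert hi, val_add, ih, Finset.prod_insert hi]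

variable {k : Type} [Field k] [Algebra k Ω]

instance : DistribMulAction (Ω ≃ₐ[k] Ω) (Ux Ω) where
  smul g a := ofUnit (g • toUnit a)
  one_smul _ := ext rfl
  mul_smul _ _ _ := ext rfl
  smul_zero g := ext (map_one g)
  smul_add g _ _ := ext (map_mul g _ _)

/-- The action on values. -/
@[simp] lemma val_smul (g : Ω ≃ₐ[k] Ω) (a : Ux Ω) : val (g • a) = g (val a) := rfl

lemma smul_eq_self_iff (g : Ω ≃ₐ[k] Ω) (a : Ux Ω) : g • a = a ↔ g (val a) = val a :=
  ⟨fun h => by rw [← val_smul, h], fun h => ext h⟩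

/-- The value of a norm is the product of conjugates. -/
lemma val_cycNorm (σ : Ω ≃ₐ[k] Ω) (n : ℕ) (a : Ux Ω) :
    val (cycNorm σ n a) = ∏ i ∈ Finset.range n, (σ ^ i) (val a) := by
  simp [cycNorm_apply]

end Ux

end Units

variable (k Ω : Type) [Field k] [Field Ω] [Algebra k Ω] [IsGalois k Ω]

/-- The open subgroups of a Galois group, as levels. -/
def galLevels : Levels (Ω ≃ₐ[k] Ω) where
  carrier := {U | ∃ F : IntermediateField k Ω, FiniteDimensional k F ∧ F.fixingSubgroup ≤ U}
  top_mem' := ⟨⊥, inferInstance, le_top⟩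
  inf_mem' := by
    rintro U V ⟨F, hF, hFU⟩ ⟨G, hG, hGV⟩
    exact ⟨F ⊔ G, IntermediateField.finiteDimensional_sup F G, by
      rw [fixingSubgroup_sup]; exact inf_le_inf hFU hGV⟩
  normalCore_mem' := by
    rintro U ⟨F, hF, hFU⟩
    refine ⟨normalClosure k F Ω, inferInstance, ?_⟩
    have : (normalClosure k F Ω).fixingSubgroup.Normal :=
      (InfiniteGalois.normal_iff_isGalois _).mpr ⟨⟩
    exact Subgroup.normal_le_normalCore.mpr
      ((fixingSubgroup_antitone F.le_normalClosure).trans hFU)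
  finiteIndex' := by
    rintro U ⟨F, hF, hFU⟩
    have : Finite ((Ω ≃ₐ[k] Ω) ⧸ F.fixingSubgroup) :=
      Subgroup.quotient_finite_of_isOpen _ (fixingSubgroup_isOpen F)
    have : F.fixingSubgroup.FiniteIndex := Subgroup.finiteIndex_of_finite_quotient
    exact Subgroup.finiteIndex_of_le hFU
  mem_of_le' := by
    rintro U V ⟨F, hF, hFU⟩ hUV
    exact ⟨F, hF, hFU.trans hUV⟩

variable {k Ω}

/-- The groups of finite subextensions are levels. -/
lemma fixingSubgroup_mem_galLevels (F : IntermediateField k Ω) [FiniteDimensional k F] :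
    F.fixingSubgroup ∈ galLevels k Ω := ⟨F, inferInstance, le_rfl⟩

lemma isOpen_of_mem_galLevels {U : Subgroup (Ω ≃ₐ[k] Ω)} (hU : U ∈ galLevels k Ω) :
    IsOpen (U : Set (Ω ≃ₐ[k] Ω)) := by
  obtain ⟨F, hF, hFU⟩ := hU
  exact Subgroup.isOpen_mono hFU (fixingSubgroup_isOpen F)

/-- Levels are groups of their fixed fields. -/
lemma fixingSubgroup_fixedField_of_mem {U : Subgroup (Ω ≃ₐ[k] Ω)} (hU : U ∈ galLevels k Ω) :
    (fixedField U).fixingSubgroup = U :=
  InfiniteGalois.fixingSubgroup_fixedField ⟨U,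
    Subgroup.isClosed_of_isOpen U (isOpen_of_mem_galLevels hU)⟩

/-- Fixed fields of levels are finite. -/
lemma finiteDimensional_fixedField {U : Subgroup (Ω ≃ₐ[k] Ω)} (hU : U ∈ galLevels k Ω) :
    FiniteDimensional k (fixedField U) := by
  obtain ⟨F, hF, hFU⟩ := hU
  have hle : fixedField U ≤ F := by
    intro x hx
    rw [← InfiniteGalois.fixedField_fixingSubgroup F]
    exact fun σ => hx ⟨σ.1, hFU σ.2⟩
  exact FiniteDimensional.of_injective (inclusion hle).toLinearMap (inclusion_injective hle)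

omit [IsGalois k Ω] in
/-- Invariant elements lie in the fixed field. -/
lemma mem_fixedField_of_smul {U : Subgroup (Ω ≃ₐ[k] Ω)} {a : Ux Ω} (h : ∀ g ∈ U, g • a = a) :
    a.val ∈ fixedField U := fun g => (Ux.smul_eq_self_iff g.1 a).mp (h g.1 g.2)

/-- The multiplicative group is smooth. -/
lemma smooth_ux : (galLevels k Ω).Smooth (Ux Ω) := fun a => by
  have : FiniteDimensional k k⟮a.val⟯ :=
    adjoin.finiteDimensional (Algebra.IsIntegral.isIntegral _)
  exact ⟨_, fixingSubgroup_mem_galLevels k⟮a.val⟯, fun g hg => Ux.ext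
    ((IntermediateField.mem_fixingSubgroup_iff _ g).mp hg _ (mem_adjoin_simple_self k a.val))⟩

/-- Hilbert 90. -/
theorem Ux.mem_B1_of_mem_Z1 {W : Subgroup (Ω ≃ₐ[k] Ω)} (hW : W ∈ galLevels k Ω)
    {c : (Ω ≃ₐ[k] Ω) → Ux Ω} (hc : c ∈ (galLevels k Ω).Z1 W (Ux Ω)) :
    c ∈ Levels.B1 W (Ux Ω) := by
  obtain ⟨V, hV, hcV⟩ := hc.1
  obtain ⟨N, hN, hNn, hNle⟩ := (galLevels k Ω).exists_normal ((galLevels k Ω).inf_mem hV hW)
  have := (galLevels k Ω).finiteIndex hN
  have : Finite (W ⧸ N.subgroupOf W) := Subgroup.finite_quotient_of_finiteIndex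
  have := Fintype.ofFinite (W ⧸ N.subgroupOf W)
  set E := fixedField N
  let φ : W ⧸ N.subgroupOf W → (E →* Ω) := fun q =>
    ((q.out : W).1.toAlgHom.toRingHom.comp E.val.toRingHom).toMonoidHom
  have hφ : ∀ q (x : E), φ q x = (q.out : W).1 (x : Ω) := fun _ _ => rfl
  have hinj : Function.Injective φ := fun q q' h => by
    rw [← q.out_eq', ← q'.out_eq', QuotientGroup.eq, Subgroup.mem_subgroupOf]
    show (q.out : W).1⁻¹ * (q'.out : W).1 ∈ N
    refine (SetLike.ext_iff.mp (fixingSubgroup_fixedField_of_mem hN) _).mp ?_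
    rw [IntermediateField.mem_fixingSubgroup_iff]
    intro x hx
    have hx' : (q.out : W).1 x = (q'.out : W).1 x := by
      rw [← hφ q ⟨x, hx⟩, ← hφ q' ⟨x, hx⟩, h]
    rw [AlgEquiv.mul_apply, ← hx', ← AlgEquiv.mul_apply, inv_mul_cancel, AlgEquiv.one_apply]
  obtain ⟨x, hx⟩ : ∃ x : E, ∑ q, (c (q.out : W)).val * φ q x ≠ 0 := by
    by_contra hne
    have h := Fintype.linearIndependent_iff.mp ((linearIndependent_monoidHom E Ω).comp φ hinj)
      (fun q => (c (q.out : W)).val) (funext fun x => by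
        simp only [not_exists, not_not] at hne
        simp only [Finset.sum_apply, Pi.smul_apply, smul_eq_mul, Function.comp_apply, Pi.zero_apply]
        exact hne x) ((1 : W) : W ⧸ N.subgroupOf W)
    exact Ux.val_ne_zero _ h
  refine ⟨-Ux.mk _ hx, fun g hg => ?_⟩
  have key : g (∑ q, (c (q.out : W)).val * φ q x) * (c g).val =
      ∑ q, (c (q.out : W)).val * φ q x := by
    rw [map_sum, Finset.sum_mul]
    refine Fintype.sum_equiv (MulAction.toPerm (⟨g, hg⟩ : W)) _ _ fun q => ?_
    simp only [MulAction.toPerm_apply]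
    have hcl : ((⟨g, hg⟩ * q.out : W) : W ⧸ N.subgroupOf W) =
        (((⟨g, hg⟩ : W) • q).out : W ⧸ N.subgroupOf W) := by
      rw [QuotientGroup.out_eq', ← smul_eq_mul, ← MulAction.Quotient.smul_coe,
        QuotientGroup.out_eq']
    rw [QuotientGroup.eq, Subgroup.mem_subgroupOf] at hcl
    set o : Ω ≃ₐ[k] Ω := ((q.out : W) : Ω ≃ₐ[k] Ω)
    set o' : Ω ≃ₐ[k] Ω := ((((⟨g, hg⟩ : W) • q).out : W) : Ω ≃ₐ[k] Ω)
    have hs : (g * o)⁻¹ * o' ∈ N := hcl
    have ho : o ∈ W := (q.out : W).2
    have e1 : c o' = g • c o + c g := by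
      rw [← Levels.Z1_apply_mul hc hg ho]
      have h := hcV (g * o) (mul_mem hg ho) ((g * o)⁻¹ * o') ⟨(hNle hs).2, (hNle hs).1⟩
      rwa [mul_inv_cancel_left] at h
    have e2 : φ ((⟨g, hg⟩ : W) • q) x = g (φ q x) := by
      rw [hφ, hφ]
      show o' (x : Ω) = g (o (x : Ω))
      have hfix : ((g * o)⁻¹ * o') (x : Ω) = x := x.2 ⟨_, hs⟩
      conv_rhs => rw [← AlgEquiv.mul_apply, ← hfix, ← AlgEquiv.mul_apply, mul_inv_cancel_left]
    rw [e2, map_mul]
    show _ = (c o').val * _
    rw [e1, Ux.val_add, Ux.val_smul]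
    ring
  refine Ux.ext ?_
  rw [d0, smul_neg, Ux.val_sub, Ux.val_neg, Ux.val_neg, Ux.val_smul, Ux.val_mk, inv_div_inv,
    eq_div_iff ((map_ne_zero g).mpr hx), mul_comm, key]

/-- Hilbert 90 for a cyclic character. -/
lemma Ux.hilbert90 {W : Subgroup (Ω ≃ₐ[k] Ω)} {n : ℕ}
    (χ : CycChar (galLevels k Ω) W n) (hW : W ∈ galLevels k Ω) :
    ∀ c ∈ (galLevels k Ω).Z1 χ.ker (Ux Ω), c ∈ Levels.B1 χ.ker (Ux Ω) :=
  fun _ hc => Ux.mem_B1_of_mem_Z1 (χ.ker_mem hW) hc

end FermatAgent.CFT
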