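import Fermat.Agent.CFT.Field.GaloisModule

/-!
Hilbert 90 for a cyclic character: elements of trivial norm.
-/

set_option autoImplicit false

noncomputable section

open scoped Classical

namespace FermatAgent.CFT

open Coh

variable {k Ω : Type} [Field k] [Field Ω] [Algebra k Ω] [IsGalois k Ω] {p : ℕ} [NeZero p]
  [hp1 : Fact (1 < p)] {W : Subgroup (Ω ≃ₐ[k] Ω)} (χ : CycChar (galLevels k Ω) W p)
  (hW : W ∈ galLevels k Ω) {σ : Ω ≃ₐ[k] Ω} (hσ : σ ∈ W) (hσ1 : χ σ = 1)

include hW hσ hσ1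

/-- An element of trivial norm is a difference. -/
theorem Ux.exists_smul_sub {a : Ux Ω} (ha : ∀ s ∈ χ.ker, s • a = a) (hn : cycNorm σ p a = 0) :
    ∃ b : Ux Ω, (∀ s ∈ χ.ker, s • b = b) ∧ σ • b - b = a := by
  set c : (Ω ≃ₐ[k] Ω) → Ux Ω := fun g => ∑ i ∈ Finset.range (χ g).val, σ ^ i • a
  have hc : c ∈ (galLevels k Ω).Z1 W (Ux Ω) :=
    ⟨χ.const'.comp fun x : ZMod p => ∑ i ∈ Finset.range x.val, σ ^ i • a, fun g hg h hh => by
      rw [d1_partialNorm χ hσ hσ1 ha hg hh, hn, cyc_zero]; rfl⟩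
  obtain ⟨b, hb⟩ := Ux.mem_B1_of_mem_Z1 hW hc
  refine ⟨b, fun s hs => ?_, ?_⟩
  · have := hb s hs.1
    simp only [c, hs.2, ZMod.val_zero, Finset.range_zero, Finset.sum_empty, d0] at this
    exact sub_eq_zero.mp this.symm
  · have := hb σ hσ
    simp only [c, hσ1, ZMod.val_one, Finset.sum_range_one, pow_zero, one_smul, d0] at this
    exact this.symm

/-- A fixed element of exponent `p` is a Kummer difference of every character. -/
theorem Ux.exists_smul_sub_val {a : Ux Ω} (ha : ∀ g ∈ W, g • a = a) (hpa : p • a = 0) :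
    ∃ b : Ux Ω, (∀ s ∈ χ.ker, s • b = b) ∧ σ • b - b = a ∧
      ∀ g ∈ W, g • b - b = (χ g).val • a := by
  have hn : cycNorm σ p a = 0 := by
    rw [cycNorm_apply, Finset.sum_congr rfl fun i _ => ha _ (pow_mem hσ i),
      Finset.sum_const, Finset.card_range, hpa]
  obtain ⟨b, hb, hbσ⟩ := Ux.exists_smul_sub χ hW hσ hσ1 (fun s hs => ha s hs.1) hn
  refine ⟨b, hb, hbσ, fun g hg => ?_⟩
  have hi : ∀ i : ℕ, σ ^ i • b - b = i • a := fun i => by
    induction i with
    | zero => simp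
    | succ i ih =>
      have e : σ • (σ ^ i • b - b) = i • a := by
        rw [ih]
        exact (map_nsmul (DistribSMul.toAddMonoidHom (Ux Ω) σ) i a).trans
          (congrArg (i • ·) (ha σ hσ))
      rw [pow_succ', mul_smul, succ_nsmul, ← e, ← hbσ, smul_sub]
      abel
  rw [smul_eq_pow_smul χ hσ hσ1 hb hg, hi]

end FermatAgent.CFT
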