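import Fermat.Agent.CFT.Field.Kummer
import Fermat.Agent.CFT.Field.Hilbert
import Fermat.Agent.CFT.Local.Semilocal

/-!
Kummer theory of the characters of a level fixing the roots of unity of prime order.
-/

set_option autoImplicit false

noncomputable section

open scoped Classical

namespace FermatAgent.CFT

open Coh Local

variable {k Ω : Type} [Field k] [Field Ω] [Algebra k Ω] {p : ℕ} [hp : Fact p.Prime]
  {χ : (Ω ≃ₐ[k] Ω) →* (ZMod p)ˣ} {ζ : Ω} (hζ : IsPrimitiveRoot ζ p)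
  (hχ : ∀ g : Ω ≃ₐ[k] Ω, g ζ = ζ ^ ((χ g : ZMod p)).val)
  {W : Subgroup (Ω ≃ₐ[k] Ω)}

/-- A root of unity as an element of the module. -/
abbrev zetaUx : Ux Ω := Ux.mk ζ (hζ.ne_zero hp.out.ne_zero)

/-- Elements killed by `p` are multiples of the root of unity. -/
lemma exists_nsmul_root {x : Ux Ω} (h : p • x = 0) : ∃ i : ℕ, i < p ∧ x = i • zetaUx hζ := by
  have : NeZero p := ⟨hp.out.ne_zero⟩
  obtain ⟨i, hi, hix⟩ :=
    hζ.eq_pow_of_pow_eq_one (ξ := x.val) (by rw [← Ux.val_nsmul, h, Ux.val_zero])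
  exact ⟨i, hi, Ux.ext (by rw [Ux.val_nsmul, Ux.val_mk, hix])⟩

/-- The root of unity is killed by `p`. -/
lemma nsmul_zetaUx : p • zetaUx hζ = 0 :=
  Ux.ext (by rw [Ux.val_nsmul, Ux.val_mk, hζ.pow_eq_one, Ux.val_zero])

/-- Multiples of the root of unity as twisted residues. -/
lemma val_smul_zetaUx (i : ZMod p) : i.val • zetaUx hζ = muToUx hζ (Mu.of χ i) := Ux.ext (by
  rw [Ux.val_nsmul, val_muToUx, Mu.val_of, Ux.val_mk])

/-- Multiples of the root of unity are distinct modulo `p`. -/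
lemma zetaUx_val_injective {i j : ZMod p} (h : i.val • zetaUx hζ = j.val • zetaUx hζ) : i = j := by
  have h' := congrArg Ux.val h
  rw [Ux.val_nsmul, Ux.val_nsmul, Ux.val_mk] at h'
  exact ZMod.val_injective p (hζ.pow_inj (ZMod.val_lt _) (ZMod.val_lt _) h')

/-- Multiples of the root of unity add modulo `p`. -/
lemma val_add_zetaUx (i j : ZMod p) :
    (i + j).val • zetaUx hζ = i.val • zetaUx hζ + j.val • zetaUx hζ := by
  refine Ux.ext ?_
  rw [Ux.val_add, Ux.val_nsmul, Ux.val_nsmul, Ux.val_nsmul, Ux.val_mk, ZMod.val_add, ← pow_add,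
    ← pow_eq_pow_mod _ hζ.pow_eq_one]

variable [IsGalois k Ω] (hW : W ∈ galLevels k Ω)

/-- The element is a Kummer generator of the character. -/
def IsKummer (ψ : CycChar (galLevels k Ω) W p) (y : Ux Ω) : Prop :=
  ∀ g ∈ W, g • y - y = (ψ g).val • zetaUx hζ

/-- The exponent of the action on a root. -/
def kumVal (y : Ux Ω) (g : Ω ≃ₐ[k] Ω) : ZMod p :=
  if h : p • (g • y - y) = 0 then ((exists_nsmul_root hζ h).choose : ZMod p) else 0

omit [IsGalois k Ω] in
/-- The defining equation of the Kummer value. -/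
lemma kumVal_spec {y : Ux Ω} (hy : p • y ∈ fixedUx W) {g : Ω ≃ₐ[k] Ω} (hg : g ∈ W) :
    g • y - y = (kumVal hζ y g).val • zetaUx hζ := by
  have h : p • (g • y - y) = 0 := by rw [nsmul_sub, nsmul_smul_comm, hy g hg, sub_self]
  rw [kumVal, dif_pos h, ZMod.val_natCast_of_lt (exists_nsmul_root hζ h).choose_spec.1]
  exact (exists_nsmul_root hζ h).choose_spec.2

variable (hWζ : ∀ {g}, g ∈ W → g • zetaUx hζ = zetaUx hζ)

/-- The character of a root. -/
def kumChar (y : Ux Ω) (hy : p • y ∈ fixedUx W) : CycChar (galLevels k Ω) W p where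
  toFun := kumVal hζ y
  map_mul' g hg h hh := by
    refine zetaUx_val_injective hζ ?_
    rw [val_add_zetaUx, ← kumVal_spec hζ hy (mul_mem hg hh), ← kumVal_spec hζ hy hg]
    have e : g • (h • y - y) = (kumVal hζ y h).val • zetaUx hζ := by
      rw [kumVal_spec hζ hy hh, ← nsmul_smul_comm, hWζ hg]
    rw [← e, mul_smul, smul_sub]
    abel
  const' := by
    obtain ⟨V, hV, hfix⟩ := smooth_ux (k := k) y
    refine ⟨V, hV, fun g _ s hs => ?_⟩
    show kumVal hζ y (g * s) = kumVal hζ y g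
    simp only [kumVal, mul_smul, hfix s hs.2]

/-- The Kummer character is a Kummer character of its root. -/
lemma isKummer_kumChar (y : Ux Ω) (hy : p • y ∈ fixedUx W) :
    IsKummer hζ (kumChar hζ hWζ y hy) y :=
  fun _ hg => kumVal_spec hζ hy hg

variable {ψ : CycChar (galLevels k Ω) W p}

/-- A Kummer character vanishes exactly where the root is fixed. -/
lemma IsKummer.eq_zero_iff {y : Ux Ω} (h : IsKummer hζ ψ y) {g : Ω ≃ₐ[k] Ω} (hg : g ∈ W) :
    ψ g = 0 ↔ g • y = y := by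
  rw [← sub_eq_zero (a := g • y), h g hg]
  refine ⟨fun h => by rw [h, ZMod.val_zero, zero_smul], fun h => zetaUx_val_injective hζ ?_⟩
  rw [h, ZMod.val_zero, zero_smul]

/-- The `p`-th multiple of a Kummer root is invariant. -/
lemma IsKummer.nsmul_mem {y : Ux Ω} (h : IsKummer hζ ψ y) : p • y ∈ fixedUx W := fun g hg => by
  rw [← sub_eq_zero, ← nsmul_smul_comm, ← nsmul_sub, h g hg, ← mul_nsmul, mul_comm, mul_nsmul,
    nsmul_zetaUx, nsmul_zero]

/-- Kummer characters do not see invariant translations. -/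
lemma IsKummer.sub_mem {y c : Ux Ω} (h : IsKummer hζ ψ y) (hc : c ∈ fixedUx W) :
    IsKummer hζ ψ (y - c) :=
  fun g hg => by rw [smul_sub, hc g hg, sub_sub_sub_cancel_right, h g hg]

include hW hWζ in
/-- Every character is a Kummer character. -/
theorem exists_isKummer {σ : Ω ≃ₐ[k] Ω} (hσ : σ ∈ W) (hσ1 : ψ σ = 1) :
    ∃ y, IsKummer hζ ψ y := by
  have : Fact (1 < p) := ⟨hp.out.one_lt⟩
  have : NeZero p := ⟨hp.out.ne_zero⟩
  obtain ⟨y, -, -, hy⟩ :=
    Ux.exists_smul_sub_val ψ hW hσ hσ1 (fun _ hg => hWζ hg) (nsmul_zetaUx hζ)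
  exact ⟨y, hy⟩

variable [IsAlgClosed Ω]

/-- The Kummer function of an element. -/
def kum (a : Ux Ω) (g : Ω ≃ₐ[k] Ω) : ZMod p := kumVal hζ (pRoot p a) g

omit [IsGalois k Ω] in
/-- The defining equation of the Kummer map. -/
lemma kum_spec {a : Ux Ω} (ha : a ∈ fixedUx W) {g : Ω ≃ₐ[k] Ω} (hg : g ∈ W) :
    g • pRoot p a - pRoot p a = (kum hζ a g).val • zetaUx hζ :=
  kumVal_spec hζ (by rwa [nsmul_pRoot]) hg

omit [IsGalois k Ω] in
include hWζ in
/-- Any root computes the Kummer function. -/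
lemma kum_eq_of_root {a y : Ux Ω} (ha : a ∈ fixedUx W) (hy : p • y = a) {g : Ω ≃ₐ[k] Ω}
    (hg : g ∈ W) {c : ZMod p} (hc : g • y - y = c.val • zetaUx hζ) : kum hζ a g = c := by
  obtain ⟨i, -, hi⟩ := exists_nsmul_root hζ (x := y - pRoot p a)
    (by rw [nsmul_sub, hy, nsmul_pRoot, sub_self])
  refine zetaUx_val_injective hζ ?_
  rw [← kum_spec hζ ha hg, ← hc]
  have h : g • (y - pRoot p a) = y - pRoot p a := by rw [hi, ← nsmul_smul_comm, hWζ hg]
  rw [← sub_eq_zero]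
  calc _ = (y - pRoot p a) - g • (y - pRoot p a) := by rw [smul_sub]; abel
    _ = 0 := by rw [h, sub_self]

omit [IsGalois k Ω] in
include hWζ in
/-- The Kummer map is additive. -/
lemma kum_add {a b : Ux Ω} (ha : a ∈ fixedUx W) (hb : b ∈ fixedUx W) {g : Ω ≃ₐ[k] Ω}
    (hg : g ∈ W) : kum hζ (a + b) g = kum hζ a g + kum hζ b g :=
  kum_eq_of_root hζ hWζ (y := pRoot p a + pRoot p b) (add_mem ha hb)
    (by rw [nsmul_add, nsmul_pRoot, nsmul_pRoot]) hg (by
      rw [val_add_zetaUx, ← kum_spec hζ ha hg, ← kum_spec hζ hb hg, smul_add]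
      abel)

omit [IsGalois k Ω] in
include hWζ in
/-- The Kummer map kills `p`-th multiples. -/
lemma kum_nsmul {c : Ux Ω} (hc : c ∈ fixedUx W) {g : Ω ≃ₐ[k] Ω} (hg : g ∈ W) :
    kum hζ (p • c) g = 0 :=
  kum_eq_of_root hζ hWζ (y := c) (nsmul_mem hc p) rfl hg
    (by rw [hc g hg, sub_self, ZMod.val_zero, zero_smul])

/-- The Kummer character of an element. -/
abbrev rootChar {a : Ux Ω} (ha : a ∈ fixedUx W) : CycChar (galLevels k Ω) W p :=
  kumChar hζ hWζ (pRoot p a) (by rwa [nsmul_pRoot])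

omit [IsGalois k Ω] in
include hχ hWζ in
/-- The effect of conjugation. -/
lemma kum_conj {a : Ux Ω} (ha : a ∈ fixedUx W) {γ : Ω ≃ₐ[k] Ω}
    (hγ : ∀ g ∈ W, γ * g * γ⁻¹ ∈ W) {g : Ω ≃ₐ[k] Ω} (hg : g ∈ W) (hγa : γ • a ∈ fixedUx W) :
    kum hζ (γ • a) (γ * g * γ⁻¹) = (χ γ : ZMod p) * kum hζ a g := by
  refine kum_eq_of_root hζ hWζ (y := γ • pRoot p a) hγa (by rw [nsmul_smul_comm, nsmul_pRoot])
    (hγ g hg) ?_
  rw [← mul_smul, inv_mul_cancel_right, mul_smul, ← smul_sub, kum_spec hζ ha hg,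
    val_smul_zetaUx (χ := χ), ← muToUx_smul hζ hχ, val_smul_zetaUx (χ := χ)]
  rfl

include hW hWζ in
/-- Every character is a Kummer function. -/
theorem exists_kum_eq (c : CycChar (galLevels k Ω) W p) :
    ∃ a ∈ fixedUx W, ∀ g ∈ W, c g = kum hζ a g := by
  have : NeZero p := ⟨hp.out.ne_zero⟩
  by_cases h0 : ∀ g ∈ W, c g = 0
  · exact ⟨0, zero_mem _, fun g hg => by
      rw [h0 g hg, ← kum_nsmul hζ hWζ (zero_mem (fixedUx W)) hg, smul_zero]⟩
  push Not at h0
  obtain ⟨d, hd, hne⟩ := h0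
  have hσ1 : c (d ^ (c d)⁻¹.val) = 1 := by
    rw [c.map_pow hd, ZMod.natCast_zmod_val, inv_mul_cancel₀ hne]
  obtain ⟨y, hy⟩ := exists_isKummer hζ hW hWζ (pow_mem hd _) hσ1
  exact ⟨p • y, hy.nsmul_mem hζ, fun g hg =>
    (kum_eq_of_root hζ hWζ (hy.nsmul_mem hζ) rfl hg (hy g hg)).symm⟩

omit [IsGalois k Ω] in
/-- A trivial Kummer function means a power. -/
lemma exists_nsmul_of_kum_eq_zero {a : Ux Ω} (ha : a ∈ fixedUx W)
    (h : ∀ g ∈ W, kum hζ a g = 0) : ∃ c ∈ fixedUx W, p • c = a :=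
  ⟨pRoot p a, fun g hg => by
    rw [← sub_eq_zero, kum_spec hζ ha hg, h g hg, ZMod.val_zero, zero_smul], nsmul_pRoot a⟩

end FermatAgent.CFT
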